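import Fermat.Agent.LocalDuality.NormIndex.Galois

/-!
# Units in unramified extensions of local fields

`normOneUnits` and the uniformiser `exists_uniformizer`.
-/

set_option autoImplicit false

noncomputable section

namespace FLTAgent.LocalDuality

/-- The elements of norm one. -/
def normOneUnits (K : Type*) [NormedField K] : Subgroup Kˣ where
  carrier := {u | ‖(u : K)‖ = 1}
  one_mem' := by simp
  mul_mem' {a b} ha hb := by
    show ‖((a * b : Kˣ) : K)‖ = 1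
    rw [Units.val_mul, norm_mul, ha, hb, one_mul]
  inv_mem' {a} ha := by
    show ‖((a⁻¹ : Kˣ) : K)‖ = 1
    rw [Units.val_inv_eq_inv_val, norm_inv, ha, inv_one]

theorem mem_normOneUnits {K : Type*} [NormedField K] {u : Kˣ} :
    u ∈ normOneUnits K ↔ ‖(u : K)‖ = 1 := Iff.rfl

variable {F : Type} [NontriviallyNormedField F] [IsUltrametricDist F] [ProperSpace F]

variable (F) in
/-- A uniformiser. -/
theorem exists_uniformizer : ∃ π : Fˣ, ‖(π : F)‖ < 1 ∧
    ∀ u : Fˣ, ∃ k : ℤ, π ^ k * u ∈ normOneUnits F := by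
  set S : Set F := Metric.ball 0 1
  have hS : IsCompact S := IsCompact.of_isClosed_subset (isCompact_closedBall (0 : F) 1)
    (IsUltrametricDist.isClosed_ball 0 1) Metric.ball_subset_closedBall
  obtain ⟨x₀, hx₀, hx₀1⟩ := NormedField.exists_norm_lt F one_pos
  obtain ⟨π, hπS, hmax⟩ := hS.exists_isMaxOn ⟨x₀, by simpa [S] using hx₀1⟩
    continuous_norm.continuousOn
  have hπ1 : ‖π‖ < 1 := by simpa [S] using hπS
  have hmax' : ∀ y : F, ‖y‖ < 1 → ‖y‖ ≤ ‖π‖ := fun y hy => hmax (by simpa [S] using hy)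
  have hπ0 : 0 < ‖π‖ := hx₀.trans_le (hmax' x₀ hx₀1)
  refine ⟨Units.mk0 π (norm_pos_iff.mp hπ0), by simpa using hπ1, fun u => ?_⟩
  obtain ⟨k, hk1, hk2⟩ := exists_mem_Ioc_zpow (norm_pos_iff.mpr u.ne_zero)
    (one_lt_inv_iff₀.mpr ⟨hπ0, hπ1⟩)
  refine ⟨k + 1, ?_⟩
  rw [mem_normOneUnits, Units.val_mul, Units.val_zpow_eq_zpow_val, norm_mul, norm_zpow,
    Units.val_mk0]
  have hp : (0 : ℝ) < ‖π‖ ^ (k + 1) := zpow_pos hπ0 _
  rw [inv_zpow, ← one_div, le_div_iff₀ hp, mul_comm] at hk2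
  rw [inv_zpow, inv_lt_iff_one_lt_mul₀ (zpow_pos hπ0 _), mul_comm] at hk1
  refine le_antisymm hk2 ?_
  by_contra hlt
  push Not at hlt
  have h2 := hmax' (π ^ (k + 1) * (u : F)) (by rwa [norm_mul, norm_zpow])
  rw [norm_mul, norm_zpow, zpow_add_one₀ hπ0.ne', mul_comm _ ‖π‖, mul_assoc] at h2
  have h3 := (mul_le_iff_le_one_right hπ0).mp h2
  linarith

variable {E : Type} [NormedField E] [NormedAlgebra F E] [IsUltrametricDist E]
  [FiniteDimensional F E]

variable [IsGalois F E]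

variable (hval : ∀ x : Eˣ, ∃ y : Fˣ, ‖(x : E)‖ = ‖(y : F)‖)
include hval

variable {g : E ≃ₐ[F] E} (hg : ∀ σ : E ≃ₐ[F] E, σ ∈ Subgroup.zpowers g)
include hg

end FLTAgent.LocalDuality
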