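import Fermat.Agent.LocalDuality.NormIndex
import Mathlib.RingTheory.RootsOfUnity.PrimitiveRoots

/-!
# A local field has only finitely many roots of unity of `p`-power order

`local_exists_no_primitiveRoot`: for some `n` there is no primitive root of unity of order
`p ^ n`; used to find the largest such root in `Duality/Nonvanishing`.
-/

set_option autoImplicit false

noncomputable section

namespace FLTAgent.LocalDuality

variable {q : ℕ} [Fact q.Prime] (K : Type) [NormedField K] [NormedAlgebra ℚ_[q] K]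
  [IsUltrametricDist K] [FiniteDimensional ℚ_[q] K] (p : ℕ) [Fact p.Prime]

include q in
theorem exists_bound_pow_eq_one :
    ∃ N : ℕ, 0 < N ∧ ∀ (n : ℕ) (x : Kˣ), x ^ p ^ n = 1 → x ^ N = 1 := by
  classical
  have : ProperSpace K := FiniteDimensional.proper ℚ_[q] K
  set b := Module.finBasis ℚ_[q] K
  have hpp : 0 < ‖(p : ℚ_[q])‖ :=
    norm_pos_iff.mpr (Nat.cast_ne_zero.mpr (Fact.out : p.Prime).ne_zero)
  obtain ⟨ρ₀, hρ₀, hρ⟩ := exists_isSmall b (half_pos hpp)
  obtain ⟨h, hC⟩ := hρ ρ₀ hρ₀ le_rfl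
  set π : Kˣ := Units.map (algebraMap ℚ_[q] K : ℚ_[q] →* K)
    (Units.mk0 (q : ℚ_[q]) (Nat.cast_ne_zero.mpr (Fact.out : q.Prime).ne_zero))
  have hπ1 : ‖(π : K)‖ < 1 := by
    show ‖algebraMap ℚ_[q] K q‖ < 1
    rw [norm_algebraMap']
    exact Padic.norm_p_lt_one
  obtain ⟨δ, hδ, hV⟩ := exists_nbhd_ball h
  set B := Subgroup.zpowers π ⊔ ball b h
  have hB : B.index ≠ 0 := index_zpowers_sup_ne_zero hπ1 hδ hV
  have htors : ∀ (n : ℕ) (v : Kˣ), v ∈ ball b h → v ^ p ^ n = 1 → v = 1 := by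
    intro n
    induction n with
    | zero => intro v _ hv; simpa using hv
    | succ n ih =>
      intro v hv hvn
      have hvp : v ^ p = 1 := ih _ (Subgroup.pow_mem _ hv p)
        (by rw [← pow_mul, ← pow_succ']; exact hvn)
      have hbot := ball_inf_ker_pow (ρ' := ρ₀ * ‖(p : ℚ_[q])‖) p h rfl hC
      exact Subgroup.mem_bot.mp (hbot ▸ (⟨hv, hvp⟩ : v ∈ ball b h ⊓ (powMonoidHom p).ker))
  refine ⟨B.index, Nat.pos_of_ne_zero hB, fun n x hx => ?_⟩
  obtain ⟨_, ⟨k, rfl⟩, v, hv, hkv⟩ := Subgroup.mem_sup.mp (Subgroup.pow_index_mem B x)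
  have hx1 : ‖(x : K)‖ = 1 := by
    have h1 := congrArg (fun u : Kˣ => ‖(u : K)‖) hx
    simp only [Units.val_pow_eq_pow_val, norm_pow, Units.val_one, norm_one] at h1
    exact (pow_eq_one_iff_of_nonneg (norm_nonneg _)
      (pow_ne_zero n (Fact.out : p.Prime).ne_zero)).mp h1
  have hk : k = 0 := by
    have h1 := congrArg (fun u : Kˣ => ‖(u : K)‖) hkv
    simp only [Units.val_mul, Units.val_zpow_eq_zpow_val, Units.val_pow_eq_pow_val, norm_mul,
      norm_zpow, norm_pow, hx1, one_pow, norm_eq_one_of_mem_ball hv, mul_one] at h1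
    exact (zpow_eq_one_iff_right₀ (norm_nonneg _) hπ1.ne).mp h1
  subst hk
  rw [← hkv]
  have hv' : v = x ^ B.index := by rw [← hkv]; simp
  simp only [zpow_zero, one_mul]
  refine htors n v hv ?_
  rw [hv', ← pow_mul, mul_comm, pow_mul, hx, one_pow]

variable (q) in
/-- For any field finite over `ℚ_q`: some `p`-power order does not occur. -/
theorem local_exists_no_primitiveRoot (F : Type) [Field F] [Algebra ℚ_[q] F]
    [FiniteDimensional ℚ_[q] F] : ∃ n : ℕ, ∀ ζ : F, ¬ IsPrimitiveRoot ζ (p ^ n) := by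
  let : NormedField F := spectralNorm.normedField ℚ_[q] F
  let : NormedAlgebra ℚ_[q] F := spectralNorm.normedAlgebra ℚ_[q] F
  have : IsUltrametricDist F := IsUltrametricDist.of_normedAlgebra ℚ_[q]
  obtain ⟨N, hN, h⟩ := exists_bound_pow_eq_one (q := q) F p
  refine ⟨N, fun ζ hζ => ?_⟩
  have hpN : 0 < p ^ N := pow_pos (Fact.out : p.Prime).pos N
  obtain ⟨u, rfl⟩ := hζ.isUnit hpN.ne'
  have h2 := h N u (Units.ext (by rw [Units.val_pow_eq_pow_val]; exact hζ.pow_eq_one))
  have h3 : p ^ N ∣ N :=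
    hζ.dvd_of_pow_eq_one N (by rw [← Units.val_pow_eq_pow_val, h2, Units.val_one])
  exact absurd (Nat.le_of_dvd hN h3) (not_le.mpr (Nat.lt_pow_self (Fact.out : p.Prime).one_lt))

end FLTAgent.LocalDuality
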