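import Mathlib.GroupTheory.Index
import Mathlib.Algebra.Group.Subgroup.Finite
import Mathlib.Data.ZMod.QuotientGroup
import Mathlib.Tactic.Ring

/-!
# Invariance of Herbrand type quotients under subgroups of finite index

`herbrand_invariance` for endomorphisms of abelian groups, and `relIndex_zpowersProd` for the
subgroup generated by one more element.
-/

set_option autoImplicit false

namespace FLTAgent.LocalDuality

variable {A : Type*} [CommGroup A]

/-- `[A : B] = [f A : f B] * [ker f : ker f ⊓ B]`. -/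
theorem index_eq_map_mul_ker (f : A →* A) (B : Subgroup A) :
    B.index = (B.map f).relIndex f.range * (B ⊓ f.ker).relIndex f.ker := by
  have h1 : (B.map f).relIndex f.range = (B ⊔ f.ker).index := by
    rw [MonoidHom.range_eq_map, Subgroup.relIndex_map_map, top_sup_eq, Subgroup.relIndex_top_right]
  rw [h1, Subgroup.inf_relIndex_right, ← Subgroup.relIndex_sup_left f.ker B, mul_comm,
    Subgroup.relIndex_mul_index le_sup_left]

/-- Invariance of the Herbrand quotient under a subgroup of finite index, in multiplicative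
form. -/
theorem herbrand_invariance (f g : A →* A) (hfg : ∀ a, f (g a) = 1) (hgf : ∀ a, g (f a) = 1)
    (B : Subgroup A) (hf : ∀ b ∈ B, f b ∈ B) (hg : ∀ b ∈ B, g b ∈ B) (hB : B.index ≠ 0) :
    g.range.relIndex f.ker * (B.map f).relIndex (B ⊓ g.ker)
      = f.range.relIndex g.ker * (B.map g).relIndex (B ⊓ f.ker) := by
  have aux : ∀ {f g : A →* A}, (∀ a, f (g a) = 1) → (∀ b ∈ B, g b ∈ B) →
      (B.map g).relIndex (B ⊓ f.ker) * (B ⊓ f.ker).relIndex f.ker
        = (B.map g).relIndex g.range * g.range.relIndex f.ker := by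
    intro f g hfg hg
    have h1 : B.map g ≤ B ⊓ f.ker := by
      rintro _ ⟨b, hb, rfl⟩
      exact ⟨hg b hb, hfg b⟩
    have h2 : g.range ≤ f.ker := by
      rintro _ ⟨a, rfl⟩
      exact hfg a
    rw [Subgroup.relIndex_mul_relIndex _ _ _ h1 inf_le_right,
      Subgroup.relIndex_mul_relIndex _ _ _ (Subgroup.map_le_range g B) h2]
  have e1 := aux hfg hg
  have e2 := aux hgf hf
  have i1 := index_eq_map_mul_ker f B
  have i2 := index_eq_map_mul_ker g B
  set a := g.range.relIndex f.ker
  set a' := f.range.relIndex g.ker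
  set c := (B.map g).relIndex (B ⊓ f.ker)
  set c' := (B.map f).relIndex (B ⊓ g.ker)
  set x := (B ⊓ f.ker).relIndex f.ker
  set x' := (B ⊓ g.ker).relIndex g.ker
  set y := (B.map g).relIndex g.range
  set y' := (B.map f).relIndex f.range
  have : a * c' * B.index = a' * c * B.index := by
    calc a * c' * B.index = a * c' * (y * x') := by rw [← i2]
      _ = (y * a) * (c' * x') := by ring
      _ = (c * x) * (y' * a') := by rw [e1, e2]
      _ = a' * c * (y' * x) := by ring
      _ = a' * c * B.index := by rw [← i1]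
  exact mul_right_cancel₀ hB this

/-- The subgroup `ϖ^ℤ V`, as the range of an injective map. -/
def zpowersProd (ϖ : A) (V : Subgroup A) : Multiplicative ℤ × V →* A :=
  (zpowersHom A ϖ).coprod V.subtype

theorem zpowersProd_apply (ϖ : A) (V : Subgroup A) (k : Multiplicative ℤ) (v : V) :
    zpowersProd ϖ V (k, v) = ϖ ^ k.toAdd * v := rfl

theorem zpowersProd_injective {ϖ : A} {V : Subgroup A} (h : ∀ k : ℤ, ϖ ^ k ∈ V → k = 0) :
    Function.Injective (zpowersProd ϖ V) := by
  rw [← MonoidHom.ker_eq_bot_iff, eq_bot_iff]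
  rintro ⟨k, v⟩ hkv
  rw [MonoidHom.mem_ker, zpowersProd_apply] at hkv
  have hk : k.toAdd = 0 := h _ (by rw [eq_inv_of_mul_eq_one_left hkv]; exact V.inv_mem v.2)
  rw [hk, zpow_zero, one_mul] at hkv
  exact Subgroup.mem_bot.mpr (Prod.ext (toAdd_eq_zero.mp hk) (Subtype.ext hkv))

/-- The index of `(ϖ^n)^ℤ S` in `ϖ^ℤ V`. -/
theorem relIndex_zpowersProd {ϖ : A} {V : Subgroup A} (h : ∀ k : ℤ, ϖ ^ k ∈ V → k = 0) (n : ℕ)
    (S : Subgroup A) (hS : S ≤ V) :
    (Subgroup.zpowers (ϖ ^ n) ⊔ S).relIndex (zpowersProd ϖ V).range = n * S.relIndex V := by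
  set T : Subgroup (Multiplicative ℤ × V) :=
    (Subgroup.zpowers (Multiplicative.ofAdd (n : ℤ))).prod (S.subgroupOf V)
  have hT : T.map (zpowersProd ϖ V) = Subgroup.zpowers (ϖ ^ n) ⊔ S := by
    refine le_antisymm ?_ (sup_le ?_ ?_)
    · rintro _ ⟨⟨k, v⟩, ⟨hk, hv⟩, rfl⟩
      obtain ⟨m, rfl⟩ := hk
      rw [zpowersProd_apply]
      refine Subgroup.mul_mem_sup ⟨m, ?_⟩ hv
      simp [← zpow_natCast, ← zpow_mul, mul_comm]
    · rw [Subgroup.zpowers_le]
      exact ⟨(Multiplicative.ofAdd (n : ℤ), 1), ⟨Subgroup.mem_zpowers _, one_mem _⟩,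
        by simp [zpowersProd_apply]⟩
    · intro s hs
      exact ⟨(1, ⟨s, hS hs⟩), ⟨one_mem _, hs⟩, by simp [zpowersProd_apply]⟩
  rw [← hT, MonoidHom.range_eq_map, Subgroup.relIndex_map_map_of_injective _ _
    (zpowersProd_injective h), Subgroup.relIndex_top_right, Subgroup.index_prod]
  congr 1
  calc (Subgroup.zpowers (Multiplicative.ofAdd (n : ℤ))).index
      = (AddSubgroup.zmultiples (n : ℤ)).index := rfl
    _ = n := by rw [Int.index_zmultiples, Int.natAbs_natCast]

end FLTAgent.LocalDuality
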