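import Fermat.Agent.LocalDuality.NormIndex.Lattice
import Fermat.Agent.LocalDuality.NormIndex.Index
import Mathlib.FieldTheory.Galois.NormalBasis
import Mathlib.RepresentationTheory.Homological.GroupCohomology.Hilbert90
import Mathlib.RingTheory.Norm.Basic

/-!
# The norm index of a cyclic extension of local fields

`index_norm_range`, by Herbrand invariance on a ball around `1` in normal basis coordinates.
-/

set_option autoImplicit false
set_option linter.unusedSectionVars false

noncomputable section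

open Filter Topology

namespace FLTAgent.LocalDuality

variable {E : Type} [NormedField E]

/-- `ϖ^ℤ V` has finite index as soon as `V` is a neighbourhood of `1`. -/
theorem index_zpowers_sup_ne_zero [ProperSpace E] {ϖ : Eˣ} (hϖ : ‖(ϖ : E)‖ < 1) {V : Subgroup Eˣ}
    {δ : ℝ} (hδ : 0 < δ) (hV : ∀ v : Eˣ, ‖(v : E) - 1‖ < δ → v ∈ V) :
    (Subgroup.zpowers ϖ ⊔ V).index ≠ 0 := by
  classical
  set a := ‖(ϖ : E)‖ with ha
  have ha0 : 0 < a := norm_pos_iff.mpr ϖ.ne_zero
  set K : Set E := {x | a ≤ ‖x‖ ∧ ‖x‖ ≤ 1} with hK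
  have hKc : IsCompact K := by
    refine IsCompact.of_isClosed_subset (isCompact_closedBall (0 : E) 1) ?_ fun x hx => ?_
    · exact (isClosed_le continuous_const continuous_norm).inter
        (isClosed_le continuous_norm continuous_const)
    · simpa using hx.2
  obtain ⟨t, htK, ht, hcov⟩ := hKc.finite_cover_balls (e := δ * a) (by positivity)
  have := ht.fintype
  let f : t → Eˣ ⧸ (Subgroup.zpowers ϖ ⊔ V) := fun w =>
    QuotientGroup.mk (Units.mk0 (w : E) (norm_pos_iff.mp (ha0.trans_le (htK w.2).1)))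
  have hf : Function.Surjective f := by
    intro u
    induction u using QuotientGroup.induction_on with
    | H u =>
      obtain ⟨k, hk1, hk2⟩ := exists_mem_Ioc_zpow (norm_pos_iff.mpr u.ne_zero)
        (one_lt_inv_iff₀.mpr ⟨ha0, hϖ⟩)
      have hmem : ((u * ϖ ^ (k + 1) : Eˣ) : E) ∈ K := by
        have hn : ‖((u * ϖ ^ (k + 1) : Eˣ) : E)‖ = ‖(u : E)‖ * a ^ (k + 1) := by
          simp [ha, norm_zpow]
        have hp : (0 : ℝ) < a ^ (k + 1) := zpow_pos ha0 _
        rw [hK, Set.mem_ofPred_eq, hn]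
        refine ⟨?_, ?_⟩
        · rw [inv_zpow, inv_lt_iff_one_lt_mul₀ (zpow_pos ha0 _)] at hk1
          rw [zpow_add_one₀ ha0.ne', ← mul_assoc]
          exact le_mul_of_one_le_left ha0.le hk1.le
        · rw [inv_zpow, ← one_div, le_div_iff₀ hp] at hk2
          exact hk2
      obtain ⟨w, hw, hwu⟩ := Set.mem_iUnion₂.mp (hcov hmem)
      refine ⟨⟨w, hw⟩, QuotientGroup.eq.mpr ?_⟩
      have hw0 : 0 < ‖w‖ := ha0.trans_le (htK hw).1
      set w' : Eˣ := Units.mk0 w (norm_pos_iff.mp hw0)
      have hv : w'⁻¹ * (u * ϖ ^ (k + 1)) ∈ V := by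
        refine hV _ ?_
        have : ((w'⁻¹ * (u * ϖ ^ (k + 1)) : Eˣ) : E) - 1
            = (((u * ϖ ^ (k + 1) : Eˣ) : E) - w) / w := by
          rw [sub_div, div_self (norm_pos_iff.mp hw0), Units.val_mul, div_eq_inv_mul]
          simp [w']
        rw [this, norm_div, div_lt_iff₀ hw0]
        rw [Metric.mem_ball, dist_eq_norm] at hwu
        exact hwu.trans_le (mul_le_mul_of_nonneg_left (htK hw).1 hδ.le)
      have : w'⁻¹ * u = w'⁻¹ * (u * ϖ ^ (k + 1)) * (ϖ ^ (k + 1))⁻¹ := by group
      show w'⁻¹ * u ∈ _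
      rw [this]
      exact Subgroup.mul_mem _ (Subgroup.mem_sup_right hv)
        (Subgroup.mem_sup_left (inv_mem (Subgroup.zpow_mem _ (Subgroup.mem_zpowers ϖ) _)))
  have : Finite (Eˣ ⧸ (Subgroup.zpowers ϖ ⊔ V)) := Finite.of_surjective f hf
  exact Subgroup.index_ne_zero_of_finite

theorem range_zpowersProd {A : Type*} [CommGroup A] (ϖ : A) (V : Subgroup A) :
    (zpowersProd ϖ V).range = Subgroup.zpowers ϖ ⊔ V := by
  refine le_antisymm ?_ (sup_le ?_ ?_)
  · rintro _ ⟨⟨k, v⟩, rfl⟩
    exact Subgroup.mul_mem_sup ⟨k.toAdd, rfl⟩ v.2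
  · rw [Subgroup.zpowers_le]
    exact ⟨(Multiplicative.ofAdd 1, 1), by simp [zpowersProd_apply]⟩
  · intro v hv
    exact ⟨(1, ⟨v, hv⟩), by simp [zpowersProd_apply]⟩

variable {F : Type} [NontriviallyNormedField F] [IsUltrametricDist F] [ProperSpace F]
  [NormedAlgebra F E] [IsUltrametricDist E]

section Basis

variable {ι : Type*} [Fintype ι] {b : Module.Basis ι F E}

/-- A small ball is a neighbourhood of `1`. -/
theorem exists_nbhd_ball {ρ : ℝ} (h : IsSmall b ρ) :
    ∃ δ > 0, ∀ v : Eˣ, ‖(v : E) - 1‖ < δ → v ∈ ball b h := by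
  have hc := (continuous_coordNorm b).continuousAt (x := 0)
  rw [Metric.continuousAt_iff] at hc
  obtain ⟨δ, hδ, hδ'⟩ := hc ρ h.pos
  refine ⟨δ, hδ, fun v hv => ?_⟩
  have := hδ' (x := (v : E) - 1) (by simpa [dist_eq_norm] using hv)
  rw [coordNorm_zero, Real.dist_eq, sub_zero] at this
  exact mem_ball.mpr ((le_abs_self _).trans this.le)

/-- The underlying set of a small ball is compact. -/
theorem isCompact_ball {ρ : ℝ} (h : IsSmall b ρ) :
    IsCompact ((Units.val : Eˣ → E) '' (ball b h : Set Eˣ)) := by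
  have : FiniteDimensional F E := Module.Finite.of_basis b
  have : ProperSpace E := FiniteDimensional.proper F E
  have heq : (Units.val : Eˣ → E) '' (ball b h : Set Eˣ) = {x | coordNorm b (x - 1) ≤ ρ} := by
    refine Set.Subset.antisymm (by rintro _ ⟨v, hv, rfl⟩; exact hv) fun x hx => ?_
    refine ⟨Units.mk0 x ?_, hx, rfl⟩
    rintro rfl
    have := h.norm_lt (x := (0 : E) - 1) hx
    simp at this
  rw [heq]
  refine IsCompact.of_isClosed_subset (isCompact_closedBall (1 : E) 1)
    (isClosed_le ((continuous_coordNorm b).comp (continuous_id.sub continuous_const))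
      continuous_const) fun x hx => ?_
  rw [Metric.mem_closedBall, dist_eq_norm]
  exact (h.norm_lt (x := x - 1) hx).le

/-- The image of a small ball under a multiplicative continuous map is closed. -/
theorem isClosed_map_ball {ρ : ℝ} (h : IsSmall b ρ) (f : Eˣ →* Eˣ) (φ : E → E)
    (hφ : ContinuousOn φ {x | x ≠ 0}) (hf : ∀ u : Eˣ, (f u : E) = φ u) :
    IsClosed ((Units.val : Eˣ → E) '' ((ball b h).map f : Set Eˣ)) := by
  have heq : (Units.val : Eˣ → E) '' ((ball b h).map f : Set Eˣ)
      = φ '' ((Units.val : Eˣ → E) '' (ball b h : Set Eˣ)) := by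
    rw [Subgroup.coe_map, Set.image_image, Set.image_image]
    exact Set.image_congr fun u _ => hf u
  rw [heq]
  refine ((isCompact_ball h).image_of_continuousOn (hφ.mono ?_)).isClosed
  rintro _ ⟨v, -, rfl⟩
  exact v.ne_zero

end Basis

variable [FiniteDimensional F E]

/-- The norm, as an endomorphism of `Eˣ`. -/
def normHom : Eˣ →* Eˣ :=
  (Units.map (algebraMap F E : F →* E)).comp (Units.map (Algebra.norm F))

/-- `x ↦ g x / x`. -/
def divHom (g : E ≃ₐ[F] E) : Eˣ →* Eˣ where
  toFun x := Units.map (g : E →* E) x / x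
  map_one' := by simp
  map_mul' x y := by rw [map_mul, mul_div_mul_comm]

theorem coe_divHom (g : E ≃ₐ[F] E) (u : Eˣ) : (divHom g u : E) = g (u : E) / u := by
  simp [divHom, Units.val_div_eq_div_val]

theorem divHom_eq_one (g : E ≃ₐ[F] E) (u : Eˣ) : divHom g u = 1 ↔ g (u : E) = u := by
  rw [Units.ext_iff, coe_divHom, Units.val_one, div_eq_one_iff_eq u.ne_zero]

variable [IsGalois F E]

theorem coe_normHom (u : Eˣ) : (normHom (F := F) u : E) = ∏ σ : E ≃ₐ[F] E, σ (u : E) := by
  rw [← Algebra.norm_eq_prod_automorphisms F (u : E)]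
  rfl

variable {g : E ≃ₐ[F] E} (hg : ∀ σ : E ≃ₐ[F] E, σ ∈ Subgroup.zpowers g)
include hg

theorem fixed_of_fixed_gen {x : E} (hx : g x = x) (σ : E ≃ₐ[F] E) : σ x = x := by
  have : Subgroup.zpowers g ≤ MulAction.stabilizer (E ≃ₐ[F] E) x := Subgroup.zpowers_le.mpr hx
  exact this (hg σ)

theorem ker_divHom : (divHom g).ker = (Units.map (algebraMap F E : F →* E)).range := by
  ext u
  rw [MonoidHom.mem_ker, divHom_eq_one]
  constructor
  · intro hu
    obtain ⟨c, hc⟩ := (IsGalois.mem_range_algebraMap_iff_fixed (u : E)).mpr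
      (fun σ => fixed_of_fixed_gen hg hu σ)
    have hc0 : c ≠ 0 := by rintro rfl; exact u.ne_zero (by rw [← hc, map_zero])
    exact ⟨Units.mk0 c hc0, Units.ext hc⟩
  · rintro ⟨c, rfl⟩
    exact g.commutes _

theorem divHom_normHom (u : Eˣ) : divHom g (normHom (F := F) u) = 1 := by
  rw [divHom_eq_one]
  exact g.commutes _

theorem normHom_divHom (u : Eˣ) : normHom (F := F) (divHom g u) = 1 := by
  show normHom (F := F) (Units.map (g : E →* E) u / u) = 1
  rw [map_div, div_eq_one]
  refine Units.ext ?_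
  show algebraMap F E (Algebra.norm F (g (u : E))) = algebraMap F E (Algebra.norm F (u : E))
  rw [Algebra.norm_eq_of_algEquiv g]

/-- Hilbert 90 in the present notation. -/
theorem ker_normHom : (normHom (F := F) (E := E)).ker = (divHom g).range := by
  refine le_antisymm (fun u hu => ?_) ?_
  · have : IsCyclic (E ≃ₐ[F] E) := ⟨g, hg⟩
    have hu' : Algebra.norm F (u : E) = 1 := by
      have := congrArg (Units.val : Eˣ → E) (MonoidHom.mem_ker.mp hu)
      exact (algebraMap F E).injective (this.trans (map_one _).symm)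
    obtain ⟨y, hy⟩ := groupCohomology.exists_div_of_norm_eq_one hg hu'
    refine ⟨y⁻¹, Units.ext ?_⟩
    rw [coe_divHom, ← hy, Units.val_inv_eq_inv_val, map_inv₀, inv_div_inv]
  · rintro _ ⟨a, rfl⟩
    exact normHom_divHom hg a

section Normal

variable (F E) in
/-- The normal basis. -/
abbrev nBasis : Module.Basis (E ≃ₐ[F] E) F E := IsGalois.normalBasis F E

omit hg in
theorem apply_nBasis (σ τ : E ≃ₐ[F] E) : σ (nBasis E F τ) = nBasis E F (σ * τ) := by
  rw [nBasis, IsGalois.normalBasis_apply τ, IsGalois.normalBasis_apply (σ * τ)]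
  rfl

omit hg in
theorem map_sum_smul_nBasis (σ : E ≃ₐ[F] E) (c : (E ≃ₐ[F] E) → F) :
    σ (∑ τ, c τ • nBasis E F τ) = ∑ τ, c τ • nBasis E F (σ * τ) := by
  simp [map_sum, apply_nBasis]

omit hg in
theorem coordNorm_map_le (σ : E ≃ₐ[F] E) (x : E) :
    coordNorm (nBasis E F) (σ x) ≤ coordNorm (nBasis E F) x := by
  conv_lhs => rw [← (nBasis E F).sum_equivFun x, map_sum_smul_nBasis]
  simpa using coordNorm_linearCombination_le (nBasis E F) _ _ (coordNorm_nonneg _ x) zero_le_one
    (norm_coord_le (nBasis E F) x) fun τ => coordNorm_basis_le (nBasis E F) (σ * τ)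

variable {ρ : ℝ} (h : IsSmall (nBasis E F) ρ)

omit hg in
theorem map_normHom_ball_le :
    (ball (nBasis E F) h).map (normHom (F := F)) ≤ ball (nBasis E F) h := by
  set b := nBasis E F
  rintro _ ⟨v, hv, rfl⟩
  refine mem_ball.mpr ?_
  rw [coe_normHom, show (∏ σ : E ≃ₐ[F] E, σ (v : E)) = ∏ σ : E ≃ₐ[F] E, (1 + σ ((v : E) - 1))
    by simp [map_sub]]
  have hM := mem_ball.mp hv
  have h1 := coordNorm_prod_one_add_le b Finset.univ (fun σ : E ≃ₐ[F] E => σ ((v : E) - 1))
    h.pos.le h.mul_lt_one.le fun σ _ => (coordNorm_map_le σ _).trans hM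
  have h2 : coordNorm b (∑ σ : E ≃ₐ[F] E, σ ((v : E) - 1)) ≤ ρ :=
    coordNorm_sum_le b _ _ h.pos.le fun σ _ => (coordNorm_map_le σ _).trans hM
  have h3 := coordNorm_add_le b
    (∏ σ : E ≃ₐ[F] E, (1 + σ ((v : E) - 1)) - 1 - ∑ σ : E ≃ₐ[F] E, σ ((v : E) - 1))
    (∑ σ : E ≃ₐ[F] E, σ ((v : E) - 1))
  rw [sub_add_cancel] at h3
  exact h3.trans (max_le (h1.trans (mul_le_of_le_one_left h.pos.le h.mul_lt_one.le)) h2)

theorem ball_inf_ker_divHom : ball (nBasis E F) h ⊓ (divHom g).ker
    = (ball (nBasis E F) h).map (normHom (F := F)) := by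
  set b := nBasis E F
  have hle : (ball b h).map (normHom (F := F)) ≤ ball b h ⊓ (divHom g).ker := by
    refine le_inf (map_normHom_ball_le h) ?_
    rintro _ ⟨v, -, rfl⟩
    exact divHom_normHom hg v
  refine le_antisymm ?_ hle
  · refine le_of_approx h _ _ inf_le_left ?_
      (isClosed_map_ball h _ (fun x => ∏ σ : E ≃ₐ[F] E, σ x) ?_ fun u => coe_normHom u)
        (r := mulConst b * ρ)
      (mul_nonneg (mulConst_pos b).le h.pos.le) h.mul_lt_one ?_
    · exact hle
    · exact (continuous_finsetProd _ fun σ _ =>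
        σ.toLinearMap.continuous_of_finiteDimensional).continuousOn
    · rintro w ⟨hw, hwD⟩
      set x := (w : E) - 1 with hx
      set c := b.equivFun x with hc
      have hfix : ∀ σ : E ≃ₐ[F] E, σ x = x := fun σ => by
        rw [hx, map_sub, map_one, fixed_of_fixed_gen hg ((divHom_eq_one g w).mp hwD) σ]
      have hconst : ∀ σ, c σ = c 1 := by
        intro σ
        have h1 : ∑ τ, c (σ⁻¹ * τ) • b τ = x := by
          conv_rhs => rw [← hfix σ, ← b.sum_equivFun x, map_sum_smul_nBasis]
          refine (Fintype.sum_equiv (Equiv.mulLeft σ) _ _ fun τ => ?_).symm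
          simp [hc, b]
        have h2 := congrFun (congrArg b.equivFun h1) σ
        rw [← b.equivFun_symm_apply, LinearEquiv.apply_symm_apply, inv_mul_cancel] at h2
        exact h2.symm
      set z := c 1 • b 1 with hz
      have hzn : coordNorm b z ≤ coordNorm b x := by
        rw [hz, coordNorm_smul]
        exact (mul_le_mul (norm_coord_le b x 1) (coordNorm_basis_le b 1) (coordNorm_nonneg _ _)
          (coordNorm_nonneg _ _)).trans_eq (mul_one _)
      have hsum : ∑ σ : E ≃ₐ[F] E, σ z = x := by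
        rw [← b.sum_equivFun x]
        refine Finset.sum_congr rfl fun σ _ => ?_
        rw [hz, map_smul, apply_nBasis, mul_one, ← hc, hconst σ]
      have hxρ : coordNorm b x ≤ ρ := mem_ball.mp hw
      have hz0 : (1 + z : E) ≠ 0 := by
        intro h0
        have := h.norm_lt (hzn.trans hxρ)
        rw [eq_neg_of_add_eq_zero_right h0] at this
        simp at this
      set v : Eˣ := Units.mk0 (1 + z) hz0
      have hv : v ∈ ball b h := mem_ball.mpr (by simpa [v] using hzn.trans hxρ)
      refine ⟨normHom (F := F) v, ⟨v, hv, rfl⟩, ?_⟩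
      have hs : ((normHom (F := F) v : Eˣ) : E) = ∏ σ : E ≃ₐ[F] E, (1 + σ z) := by
        rw [coe_normHom]; simp [v]
      have hR := coordNorm_prod_one_add_le b Finset.univ (fun σ : E ≃ₐ[F] E => σ z)
        (coordNorm_nonneg b x)
        ((mul_le_mul_of_nonneg_left hxρ (mulConst_pos b).le).trans h.mul_lt_one.le)
        fun σ _ => (coordNorm_map_le σ z).trans hzn
      rw [hsum, ← hs] at hR
      have hsball : coordNorm b (((normHom (F := F) v : Eˣ) : E) - 1) ≤ ρ := by
        have h3 := coordNorm_add_le b (((normHom (F := F) v : Eˣ) : E) - 1 - x) x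
        rw [sub_add_cancel] at h3
        exact h3.trans (max_le (hR.trans ((mul_le_mul_of_nonneg_left hxρ (mul_nonneg
          (mulConst_pos b).le (coordNorm_nonneg b x))).trans (mul_le_of_le_one_left h.pos.le
          ((mul_le_mul_of_nonneg_left hxρ (mulConst_pos b).le).trans h.mul_lt_one.le)))) hxρ)
      rw [show ((w / normHom (F := F) v : Eˣ) : E) - 1
          = ((w : E) - normHom (F := F) v) * ↑(normHom (F := F) v)⁻¹ by
        rw [sub_mul, Units.mul_inv, div_eq_mul_inv, Units.val_mul]]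
      refine (h.coordNorm_div_le hsball _).trans ?_
      rw [← coordNorm_neg, show -((w : E) - normHom (F := F) v)
        = ((normHom (F := F) v : Eˣ) : E) - 1 - x by rw [hx]; ring]
      exact hR.trans (mul_le_mul_of_nonneg_right
        (mul_le_mul_of_nonneg_left hxρ (mulConst_pos b).le) (coordNorm_nonneg b x))

theorem map_divHom_ball_le :
    (ball (nBasis E F) h).map (divHom g) ≤ ball (nBasis E F) h := by
  rintro _ ⟨v, hv, rfl⟩
  refine (ball _ h).div_mem (mem_ball.mpr ?_) hv
  show coordNorm _ (g (v : E) - 1) ≤ ρ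
  rw [show g (v : E) - 1 = g ((v : E) - 1) by rw [map_sub, map_one]]
  exact (coordNorm_map_le g _).trans (mem_ball.mp hv)

theorem ball_inf_ker_normHom : ball (nBasis E F) h ⊓ (normHom (F := F)).ker
    = (ball (nBasis E F) h).map (divHom g) := by
  set b := nBasis E F
  have hle : (ball b h).map (divHom g) ≤ ball b h ⊓ (normHom (F := F)).ker := by
    refine le_inf (map_divHom_ball_le hg h) ?_
    rintro _ ⟨v, -, rfl⟩
    exact normHom_divHom hg v
  refine le_antisymm ?_ hle
  refine le_of_approx h _ _ inf_le_left hle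
    (isClosed_map_ball h _ (fun x => g x / x) ?_ fun u => coe_divHom g u) (r := mulConst b * ρ)
    (mul_nonneg (mulConst_pos b).le h.pos.le) h.mul_lt_one ?_
  · exact (g.toLinearMap.continuous_of_finiteDimensional).continuousOn.div continuousOn_id
      fun x hx => hx
  rintro w ⟨hw, hwN⟩
  set x := (w : E) - 1 with hx
  set c := b.equivFun x with hc
  have hxρ : coordNorm b x ≤ ρ := mem_ball.mp hw
  have hCx : mulConst b * coordNorm b x ≤ 1 :=
    (mul_le_mul_of_nonneg_left hxρ (mulConst_pos b).le).trans h.mul_lt_one.le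
  -- the total coefficient is quadratically small
  have hprod : ∏ σ : E ≃ₐ[F] E, (1 + σ x) = 1 := by
    rw [show (∏ σ : E ≃ₐ[F] E, (1 + σ x)) = ∏ σ : E ≃ₐ[F] E, σ (w : E) by simp [hx, map_sub],
      ← coe_normHom, MonoidHom.mem_ker.mp hwN, Units.val_one]
  have hR := coordNorm_prod_one_add_le b Finset.univ (fun σ : E ≃ₐ[F] E => σ x)
    (coordNorm_nonneg b x) hCx fun σ _ => coordNorm_map_le σ x
  rw [hprod, sub_self, zero_sub, coordNorm_neg] at hR
  set t := ∑ σ, c σ with ht
  have htr : ∑ σ : E ≃ₐ[F] E, σ x = ∑ σ : E ≃ₐ[F] E, t • b σ := by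
    rw [← b.sum_equivFun x]
    simp only [map_sum_smul_nBasis, b, ← hc]
    rw [Finset.sum_comm]
    simp only [ht, Finset.sum_smul]
    rw [Finset.sum_comm (f := fun σ τ => c τ • nBasis E F σ)]
    exact Finset.sum_congr rfl fun τ _ =>
      Fintype.sum_equiv (Equiv.mulRight τ) _ _ fun σ => rfl
  have htn : ‖t‖ ≤ mulConst b * coordNorm b x * coordNorm b x := by
    rw [htr, ← b.equivFun_symm_apply] at hR
    refine le_trans ?_ hR
    rw [coordNorm, LinearEquiv.apply_symm_apply]
    exact norm_le_pi_norm (fun _ : E ≃ₐ[F] E => t) 1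
  -- telescoping
  choose i hi using fun σ : E ≃ₐ[F] E =>
    Submonoid.mem_powers_iff _ _ |>.mp
      ((isOfFinOrder_of_finite g).mem_powers_iff_mem_zpowers.mpr (hg σ))
  set y := ∑ σ, c σ • ∑ j ∈ Finset.range (i σ), b (g ^ j) with hy
  have hyn : coordNorm b y ≤ coordNorm b x := by
    simpa using coordNorm_linearCombination_le b c _ (coordNorm_nonneg _ x) zero_le_one
      (norm_coord_le b x) fun σ => coordNorm_sum_le b _ _ zero_le_one
        fun j _ => coordNorm_basis_le b (g ^ j)
  have hgy : g y - y = x - t • b 1 := by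
    conv_rhs => rw [← b.sum_equivFun x, ← hc, ht, Finset.sum_smul, ← Finset.sum_sub_distrib]
    rw [hy, map_sum, ← Finset.sum_sub_distrib]
    refine Finset.sum_congr rfl fun σ _ => ?_
    rw [map_smul, ← smul_sub, ← smul_sub, map_sum, ← Finset.sum_sub_distrib]
    congr 1
    rw [show (fun j => g (b (g ^ j)) - b (g ^ j)) = fun j => b (g ^ (j + 1)) - b (g ^ j) from
      funext fun j => by rw [apply_nBasis, pow_succ'],
      Finset.sum_range_sub (fun j => b (g ^ j)), hi σ, pow_zero]
  have hy0 : (1 + y : E) ≠ 0 := by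
    intro h0
    have := h.norm_lt (hyn.trans hxρ)
    rw [eq_neg_of_add_eq_zero_right h0] at this
    simp at this
  set v : Eˣ := Units.mk0 (1 + y) hy0
  have hv : v ∈ ball b h := mem_ball.mpr (by simpa [v] using hyn.trans hxρ)
  refine ⟨divHom g v, ⟨v, hv, rfl⟩, ?_⟩
  have hgv : coordNorm b ((Units.map (g : E →* E) v : E) - 1) ≤ ρ := by
    simpa [v] using (coordNorm_map_le g y).trans (hyn.trans hxρ)
  have hd : w / divHom g v = w * v * (Units.map (g : E →* E) v)⁻¹ := by
    show w / (Units.map (g : E →* E) v / v) = _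
    rw [div_div_eq_mul_div, div_eq_mul_inv]
  have key : ((w / divHom g v : Eˣ) : E) - 1
      = (t • b 1 + x * y) * ↑(Units.map (g : E →* E) v)⁻¹ := by
    have e : t • b 1 = x - (g y - y) := by rw [hgy]; ring
    have hgval : ((Units.map (g : E →* E) v : Eˣ) : E) = 1 + g y := by simp [v]
    rw [hd, Units.val_mul, Units.val_mul, e,
      ← Units.mul_inv (Units.map (g : E →* E) v), ← sub_mul, hgval]
    congr 1
    simp only [hx, v, Units.val_mk0]
    ring
  rw [key]
  refine (h.coordNorm_div_le hgv _).trans ((coordNorm_add_le b _ _).trans (max_le ?_ ?_))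
  · rw [coordNorm_smul]
    refine (mul_le_of_le_one_right (norm_nonneg _) (coordNorm_basis_le b 1)).trans (htn.trans ?_)
    exact mul_le_mul_of_nonneg_right (mul_le_mul_of_nonneg_left hxρ (mulConst_pos b).le)
      (coordNorm_nonneg b x)
  · refine (coordNorm_mul_le b x y).trans ?_
    exact mul_le_mul (mul_le_mul_of_nonneg_left hxρ (mulConst_pos b).le) hyn
      (coordNorm_nonneg _ _) (mul_nonneg (mulConst_pos b).le h.pos.le)

end Normal

/-- **Norm index of a cyclic extension of local fields.** -/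
theorem index_norm_range {ϖ : F} (hϖ0 : ϖ ≠ 0) (hϖ : ‖ϖ‖ < 1) :
    (Units.map (Algebra.norm F : E →* F)).range.index = Module.finrank F E := by
  have : ProperSpace E := FiniteDimensional.proper F E
  obtain ⟨ρ, hρ0, hρ⟩ := exists_isSmall (nBasis E F) zero_lt_one
  have h := (hρ ρ hρ0 le_rfl).1
  set V := ball (nBasis E F) h
  set π : Eˣ := Units.map (algebraMap F E : F →* E) (Units.mk0 ϖ hϖ0) with hπ
  have hπn : ‖(π : E)‖ = ‖ϖ‖ := norm_algebraMap' E ϖ
  have hπ1 : ‖(π : E)‖ < 1 := by rw [hπn]; exact hϖ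
  have hinj : ∀ k : ℤ, π ^ k ∈ V → k = 0 := by
    intro k hk
    have := norm_eq_one_of_mem_ball hk
    rw [Units.val_zpow_eq_zpow_val, norm_zpow] at this
    exact (zpow_eq_one_iff_right₀ (norm_nonneg _) hπ1.ne).mp this
  have hDπ : divHom g π = 1 := (divHom_eq_one g π).mpr (g.commutes ϖ)
  have hNπ : normHom (F := F) π = π ^ Module.finrank F E := by
    refine Units.ext ?_
    show algebraMap F E (Algebra.norm F (algebraMap F E ϖ)) = ((π ^ _ : Eˣ) : E)
    rw [Algebra.norm_algebraMap, map_pow, Units.val_pow_eq_pow_val]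
    rfl
  set n := Module.finrank F E
  have hn : 0 < n := Module.finrank_pos
  set B := Subgroup.zpowers π ⊔ V
  have hB : B.index ≠ 0 := by
    obtain ⟨δ, hδ, hV⟩ := exists_nbhd_ball h
    exact index_zpowers_sup_ne_zero hπ1 hδ hV
  have hDB : B.map (divHom g) = V.map (divHom g) := by
    rw [Subgroup.map_sup, MonoidHom.map_zpowers, hDπ, Subgroup.zpowers_one_eq_bot, bot_sup_eq]
  have hNB : B.map (normHom (F := F)) = Subgroup.zpowers (π ^ n) ⊔ (V ⊓ (divHom g).ker) := by
    rw [Subgroup.map_sup, MonoidHom.map_zpowers, hNπ, ball_inf_ker_divHom hg h]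
  have key := herbrand_invariance (divHom g) (normHom (F := F)) (divHom_normHom hg)
    (normHom_divHom hg) B
    (fun b hb => Subgroup.mem_sup_right (map_divHom_ball_le hg h
      (by rw [← hDB]; exact ⟨b, hb, rfl⟩)))
    (fun b hb => by
      have : normHom (F := F) b ∈ B.map (normHom (F := F)) := ⟨b, hb, rfl⟩
      rw [hNB] at this
      refine (sup_le ?_ ?_ : _ ≤ B) this
      · rw [Subgroup.zpowers_le]
        exact Subgroup.mem_sup_left (Subgroup.pow_mem _ (Subgroup.mem_zpowers π) n)
      · exact inf_le_left.trans le_sup_right) hB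
  -- on `B` the norm-one elements are coboundaries
  have hBN : B ⊓ (normHom (F := F)).ker = V.map (divHom g) := by
    rw [← ball_inf_ker_normHom hg h]
    refine le_antisymm ?_ (inf_le_inf_right _ le_sup_right)
    rintro a ⟨ha, haN⟩
    obtain ⟨_, ⟨k, rfl⟩, v, hv, rfl⟩ := Subgroup.mem_sup.mp ha
    have hv' : normHom (F := F) v ∈ V := map_normHom_ball_le h ⟨v, hv, rfl⟩
    have hk : π ^ ((n : ℤ) * k) ∈ V := by
      have := MonoidHom.mem_ker.mp haN
      rw [map_mul, map_zpow, hNπ, ← zpow_natCast, ← zpow_mul] at this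
      rw [eq_inv_of_mul_eq_one_left this]
      exact V.inv_mem hv'
    have hk0 : k = 0 := (mul_eq_zero.mp (hinj _ hk)).resolve_left (by omega)
    subst hk0
    refine ⟨by simpa using hv, haN⟩
  have hBD : B ⊓ (divHom g).ker = (zpowersProd π (V ⊓ (divHom g).ker)).range := by
    rw [range_zpowersProd]
    refine le_antisymm ?_ (sup_le ?_ (inf_le_inf_right _ le_sup_right))
    · rintro a ⟨ha, haD⟩
      obtain ⟨_, ⟨k, rfl⟩, v, hv, rfl⟩ := Subgroup.mem_sup.mp ha
      refine Subgroup.mul_mem_sup ⟨k, rfl⟩ ⟨hv, ?_⟩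
      have := MonoidHom.mem_ker.mp haD
      rw [map_mul, map_zpow, hDπ, one_zpow, one_mul] at this
      exact this
    · rw [Subgroup.zpowers_le]
      exact ⟨Subgroup.mem_sup_left (Subgroup.mem_zpowers π), hDπ⟩
  rw [hDB, hBN, hNB, hBD, Subgroup.relIndex_self, mul_one, relIndex_zpowersProd
    (fun k hk => hinj k (Subgroup.mem_inf.mp hk).1) n _ le_rfl, Subgroup.relIndex_self, mul_one,
    ker_normHom hg,
    Subgroup.relIndex_self, one_mul, ker_divHom hg,
    show (normHom (F := F) (E := E)).range = (Units.map (Algebra.norm F : E →* F)).range.map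
      (Units.map (algebraMap F E : F →* E)) by rw [normHom, MonoidHom.range_comp],
    MonoidHom.range_eq_map (Units.map (algebraMap F E : F →* E))] at key
  have hmi : Function.Injective (Units.map (algebraMap F E : F →* E)) :=
    fun a b hab => Units.ext ((algebraMap F E).injective (congrArg Units.val hab))
  rw [Subgroup.relIndex_map_map_of_injective _ _ hmi, Subgroup.relIndex_top_right] at key
  exact key

end FLTAgent.LocalDuality
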