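import Mathlib.Analysis.Normed.Group.Ultra
import Mathlib.Analysis.Normed.Module.FiniteDimension
import Mathlib.Topology.MetricSpace.Ultra.Pi

/-!
# Small lattice neighbourhoods of `1` in a finite extension of a local field

For a basis `b` of `E/F`, `coordNorm b` is the sup norm of the coordinates and `ball b ρ` the
group `1 + {x | coordNorm b x ≤ ρ}`, for `ρ` small.
-/

set_option autoImplicit false
set_option linter.unusedSectionVars false

noncomputable section

open Filter Topology

namespace FLTAgent.LocalDuality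

variable {F E ι : Type*} [NontriviallyNormedField F] [IsUltrametricDist F] [NormedField E]
  [NormedAlgebra F E] [Fintype ι] (b : Module.Basis ι F E)

/-- The sup norm of the coordinates. -/
def coordNorm (x : E) : ℝ := ‖b.equivFun x‖

theorem coordNorm_nonneg (x : E) : 0 ≤ coordNorm b x := norm_nonneg _

theorem coordNorm_zero : coordNorm b 0 = 0 := by simp [coordNorm]

theorem coordNorm_eq_zero {x : E} : coordNorm b x = 0 ↔ x = 0 := by simp [coordNorm]

theorem coordNorm_add_le (x y : E) :
    coordNorm b (x + y) ≤ max (coordNorm b x) (coordNorm b y) := by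
  rw [coordNorm, map_add]
  exact IsUltrametricDist.norm_add_le_max _ _

theorem coordNorm_neg (x : E) : coordNorm b (-x) = coordNorm b x := by simp [coordNorm]

theorem coordNorm_sub_le (x y : E) :
    coordNorm b (x - y) ≤ max (coordNorm b x) (coordNorm b y) := by
  rw [sub_eq_add_neg, ← coordNorm_neg b y]
  exact coordNorm_add_le b _ _

theorem coordNorm_smul (c : F) (x : E) : coordNorm b (c • x) = ‖c‖ * coordNorm b x := by
  simp [coordNorm, norm_smul]

theorem coordNorm_sum_le {α : Type*} (s : Finset α) (f : α → E) {M : ℝ} (hM : 0 ≤ M)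
    (hf : ∀ i ∈ s, coordNorm b (f i) ≤ M) : coordNorm b (∑ i ∈ s, f i) ≤ M := by
  rw [coordNorm, map_sum]
  exact IsUltrametricDist.norm_sum_le_of_forall_le_of_nonneg hM hf

theorem norm_coord_le (x : E) (i : ι) : ‖b.equivFun x i‖ ≤ coordNorm b x := norm_le_pi_norm _ i

theorem coordNorm_basis_le (i : ι) : coordNorm b (b i) ≤ 1 := by
  classical
  rw [coordNorm, pi_norm_le_iff_of_nonneg zero_le_one]
  intro j
  rw [b.equivFun_apply, b.repr_self, Finsupp.single_apply]
  split_ifs <;> simp

/-- If the images of the basis have coordinate norm at most `M`, so do linear combinations. -/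
theorem coordNorm_linearCombination_le (c : ι → F) (f : ι → E) {M D : ℝ} (hD : 0 ≤ D) (hM : 0 ≤ M)
    (hc : ∀ i, ‖c i‖ ≤ D) (hf : ∀ i, coordNorm b (f i) ≤ M) :
    coordNorm b (∑ i, c i • f i) ≤ D * M := by
  refine coordNorm_sum_le b _ _ (mul_nonneg hD hM) fun i _ => ?_
  rw [coordNorm_smul]
  exact mul_le_mul (hc i) (hf i) (coordNorm_nonneg b _) hD

/-- A bound for products in coordinates. -/
def mulConst : ℝ := 1 + ∑ i, ∑ j, coordNorm b (b i * b j)

/-- A bound of the norm by the coordinate norm. -/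
def normConst : ℝ := 1 + ∑ i, ‖b i‖

theorem one_le_mulConst : 1 ≤ mulConst b :=
  le_add_of_nonneg_right (Finset.sum_nonneg fun _ _ => Finset.sum_nonneg fun _ _ => norm_nonneg _)

theorem mulConst_pos : 0 < mulConst b := one_pos.trans_le (one_le_mulConst b)

theorem one_le_normConst : 1 ≤ normConst b :=
  le_add_of_nonneg_right (Finset.sum_nonneg fun _ _ => norm_nonneg _)

theorem coordNorm_mul_le (x y : E) :
    coordNorm b (x * y) ≤ mulConst b * coordNorm b x * coordNorm b y := by
  have key : x * y = ∑ i, ∑ j, (b.equivFun x i * b.equivFun y j) • (b i * b j) := by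
    conv_lhs => rw [← b.sum_equivFun x, ← b.sum_equivFun y]
    rw [Finset.sum_mul_sum]
    simp only [smul_mul_smul_comm]
  rw [key]
  have hnn : 0 ≤ mulConst b * coordNorm b x * coordNorm b y :=
    mul_nonneg (mul_nonneg (mulConst_pos b).le (coordNorm_nonneg b _)) (coordNorm_nonneg b _)
  refine coordNorm_sum_le b _ _ hnn fun i _ => coordNorm_sum_le b _ _ hnn fun j _ => ?_
  rw [coordNorm_smul, norm_mul]
  have h1 : coordNorm b (b i * b j) ≤ mulConst b := by
    refine le_trans ?_ (le_add_of_nonneg_left zero_le_one)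
    exact (Finset.single_le_sum (f := fun j => coordNorm b (b i * b j))
      (fun _ _ => norm_nonneg _) (Finset.mem_univ j)).trans
      (Finset.single_le_sum (f := fun i => ∑ j, coordNorm b (b i * b j))
        (fun _ _ => Finset.sum_nonneg fun _ _ => norm_nonneg _) (Finset.mem_univ i))
  calc ‖b.equivFun x i‖ * ‖b.equivFun y j‖ * coordNorm b (b i * b j)
      ≤ coordNorm b x * coordNorm b y * mulConst b :=
        mul_le_mul (mul_le_mul (norm_coord_le b x i) (norm_coord_le b y j) (norm_nonneg _)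
          (coordNorm_nonneg b _)) h1 (coordNorm_nonneg b _)
          (mul_nonneg (coordNorm_nonneg b _) (coordNorm_nonneg b _))
    _ = mulConst b * coordNorm b x * coordNorm b y := by ring

theorem norm_le_coordNorm (x : E) : ‖x‖ ≤ normConst b * coordNorm b x := by
  conv_lhs => rw [← b.sum_equivFun x]
  refine (norm_sum_le _ _).trans ?_
  rw [normConst, add_mul, one_mul, Finset.sum_mul]
  refine le_trans (Finset.sum_le_sum fun i _ => ?_) (le_add_of_nonneg_left (coordNorm_nonneg b x))
  rw [norm_smul, mul_comm]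
  exact mul_le_mul_of_nonneg_left (norm_coord_le b x i) (norm_nonneg _)

theorem continuous_coordNorm [CompleteSpace F] : Continuous (coordNorm b) :=
  haveI : FiniteDimensional F E := Module.Finite.of_basis b
  b.equivFun.toLinearMap.continuous_of_finiteDimensional.norm

/-- Conditions on the radius of a ball. -/
structure IsSmall (ρ : ℝ) : Prop where
  pos : 0 < ρ
  mul_lt_one : mulConst b * ρ < 1
  norm_lt_one : normConst b * ρ < 1

theorem exists_isSmall {ε : ℝ} (hε : 0 < ε) : ∃ ρ₀ > 0, ∀ ρ, 0 < ρ → ρ ≤ ρ₀ →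
    IsSmall b ρ ∧ mulConst b * ρ ≤ ε := by
  have hm := mulConst_pos b
  have hn := one_pos.trans_le (one_le_normConst b)
  refine ⟨min (min (2 * mulConst b)⁻¹ (2 * normConst b)⁻¹) (ε / mulConst b), by positivity,
    fun ρ hρ hle => ?_⟩
  simp only [le_min_iff] at hle
  obtain ⟨⟨h1, h2⟩, h3⟩ := hle
  rw [← one_div, le_div_iff₀ (by positivity)] at h1 h2
  rw [le_div_iff₀ hm] at h3
  exact ⟨⟨hρ, by linarith, by linarith⟩, by linarith⟩

variable {b}

theorem IsSmall.norm_lt {ρ : ℝ} (h : IsSmall b ρ) {x : E} (hx : coordNorm b x ≤ ρ) : ‖x‖ < 1 :=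
  ((norm_le_coordNorm b x).trans (mul_le_mul_of_nonneg_left hx
    (zero_le_one.trans (one_le_normConst b)))).trans_lt h.norm_lt_one

theorem IsSmall.mul_le {ρ : ℝ} (h : IsSmall b ρ) {x y : E} (hx : coordNorm b x ≤ ρ) :
    coordNorm b (x * y) ≤ coordNorm b y := by
  refine (coordNorm_mul_le b x y).trans ?_
  have : mulConst b * coordNorm b x ≤ 1 :=
    (mul_le_mul_of_nonneg_left hx (mulConst_pos b).le).trans h.mul_lt_one.le
  calc mulConst b * coordNorm b x * coordNorm b y ≤ 1 * coordNorm b y :=
        mul_le_mul_of_nonneg_right this (coordNorm_nonneg b y)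
    _ = coordNorm b y := one_mul _

theorem IsSmall.inv_sub_one_le {ρ : ℝ} (h : IsSmall b ρ) {v : Eˣ}
    (hv : coordNorm b ((v : E) - 1) ≤ ρ) :
    coordNorm b ((↑v⁻¹ : E) - 1) ≤ coordNorm b ((v : E) - 1) := by
  set x := (v : E) - 1
  set y := (↑v⁻¹ : E) - 1 with hy
  by_contra hlt
  push Not at hlt
  have hyx : y = -x - x * y := by
    have : (v : E) * ↑v⁻¹ = 1 := v.mul_inv
    simp only [x, y]
    linear_combination this
  have h1 : coordNorm b (x * y) < coordNorm b y := by
    refine (coordNorm_mul_le b x y).trans_lt ?_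
    have : mulConst b * coordNorm b x < 1 :=
      (mul_le_mul_of_nonneg_left hv (mulConst_pos b).le).trans_lt h.mul_lt_one
    exact mul_lt_of_lt_one_left ((coordNorm_nonneg b x).trans_lt hlt) this
  have h2 : coordNorm b y ≤ max (coordNorm b x) (coordNorm b (x * y)) := by
    conv_lhs => rw [hyx]
    refine (coordNorm_sub_le b _ _).trans ?_
    rw [coordNorm_neg]
  exact absurd h2 (not_le.mpr (max_lt hlt h1))

variable (b) in
/-- The group `1 + {x | coordNorm b x ≤ ρ}`. -/
def ball {ρ : ℝ} (h : IsSmall b ρ) : Subgroup Eˣ where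
  carrier := {v | coordNorm b ((v : E) - 1) ≤ ρ}
  one_mem' := by simp [coordNorm_zero, h.pos.le]
  mul_mem' {v w} hv hw := by
    show coordNorm b _ ≤ ρ
    have : ((v * w : Eˣ) : E) - 1 =
        ((v : E) - 1) + ((w : E) - 1) + ((v : E) - 1) * ((w : E) - 1) := by
      push_cast; ring
    rw [this]
    exact (coordNorm_add_le b _ _).trans (max_le ((coordNorm_add_le b _ _).trans (max_le hv hw))
      ((h.mul_le hv).trans hw))
  inv_mem' {v} hv := (h.inv_sub_one_le hv).trans hv

theorem mem_ball {ρ : ℝ} {h : IsSmall b ρ} {v : Eˣ} :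
    v ∈ ball b h ↔ coordNorm b ((v : E) - 1) ≤ ρ := Iff.rfl

/-- Dividing by an element of the ball does not increase the coordinate norm. -/
theorem IsSmall.coordNorm_div_le {ρ : ℝ} (h : IsSmall b ρ) {v : Eˣ}
    (hv : coordNorm b ((v : E) - 1) ≤ ρ) (x : E) :
    coordNorm b (x * ↑v⁻¹) ≤ coordNorm b x := by
  have hi := (h.inv_sub_one_le hv).trans hv
  have : x * ↑v⁻¹ = x + ((↑v⁻¹ : E) - 1) * x := by ring
  rw [this]
  exact (coordNorm_add_le b _ _).trans (max_le le_rfl (h.mul_le hi))

variable [IsUltrametricDist E]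

theorem norm_eq_one_of_mem_ball {ρ : ℝ} {h : IsSmall b ρ} {v : Eˣ} (hv : v ∈ ball b h) :
    ‖(v : E)‖ = 1 := by
  have h1 : ‖(v : E) - 1‖ < 1 := h.norm_lt hv
  have h2 := IsUltrametricDist.norm_add_eq_max_of_norm_ne_norm (x := (1 : E)) (y := (v : E) - 1)
    (by rw [norm_one]; exact h1.ne')
  rw [add_sub_cancel, norm_one, max_eq_left h1.le] at h2
  exact h2

omit [IsUltrametricDist E]

variable (b) in
/-- `∏ (1 + a i) = 1 + ∑ a i` up to quadratic terms. -/
theorem coordNorm_prod_one_add_le {α : Type*} (s : Finset α) (a : α → E) {M : ℝ} (hM : 0 ≤ M)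
    (hCM : mulConst b * M ≤ 1) (ha : ∀ i ∈ s, coordNorm b (a i) ≤ M) :
    coordNorm b (∏ i ∈ s, (1 + a i) - 1 - ∑ i ∈ s, a i) ≤ mulConst b * M * M := by
  classical
  have hC := mulConst_pos b
  induction s using Finset.induction_on with
  | empty => simp [coordNorm_zero, mul_nonneg, hM, hC.le]
  | @insert j t hj ih =>
    have ih := ih fun i hi => ha i (Finset.mem_insert_of_mem hi)
    set S := ∑ i ∈ t, a i with hSdef
    set R := ∏ i ∈ t, (1 + a i) - 1 - S with hR
    have hS : coordNorm b S ≤ M :=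
      coordNorm_sum_le b _ _ hM fun i hi => ha i (Finset.mem_insert_of_mem hi)
    have haj := ha j (Finset.mem_insert_self j t)
    rw [Finset.prod_insert hj, Finset.sum_insert hj,
      show (1 + a j) * ∏ i ∈ t, (1 + a i) - 1 - (a j + S) = R + a j * S + a j * R by
        rw [hR]; ring]
    refine (coordNorm_add_le b _ _).trans (max_le ((coordNorm_add_le b _ _).trans
      (max_le ih ?_)) ?_)
    · exact (coordNorm_mul_le b _ _).trans (mul_le_mul (mul_le_mul_of_nonneg_left haj hC.le) hS
        (coordNorm_nonneg b _) (mul_nonneg hC.le hM))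
    · refine (coordNorm_mul_le b _ _).trans ?_
      refine mul_le_mul (mul_le_mul_of_nonneg_left haj hC.le) (ih.trans ?_)
        (coordNorm_nonneg b _) (mul_nonneg hC.le hM)
      exact mul_le_of_le_one_left hM hCM

/-- Successive approximation inside a ball. -/
theorem le_of_approx {ρ : ℝ} (h : IsSmall b ρ) (S W : Subgroup Eˣ) (hW : W ≤ ball b h)
    (hSW : S ≤ W) (hS : IsClosed ((Units.val : Eˣ → E) '' (S : Set Eˣ))) {r : ℝ} (hr₀ : 0 ≤ r)
    (hr : r < 1) (hstep : ∀ w ∈ W, ∃ s ∈ S,
      coordNorm b (((w / s : Eˣ) : E) - 1) ≤ r * coordNorm b ((w : E) - 1)) : W ≤ S := by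
  intro w hw
  choose f hfS hf using hstep
  let u : ℕ → W := fun n => Nat.rec ⟨w, hw⟩
    (fun _ v => ⟨v.1 / f v.1 v.2, W.div_mem v.2 (hSW (hfS v.1 v.2))⟩) n
  have hu : ∀ n, coordNorm b (((u n).1 : E) - 1) ≤ r ^ n * ρ := by
    intro n
    induction n with
    | zero => simpa [u] using mem_ball.mp (hW hw)
    | succ n ih =>
      calc coordNorm b (((u (n + 1)).1 : E) - 1)
          ≤ r * coordNorm b (((u n).1 : E) - 1) := hf (u n).1 (u n).2
        _ ≤ r * (r ^ n * ρ) := mul_le_mul_of_nonneg_left ih hr₀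
        _ = r ^ (n + 1) * ρ := by ring
  have hmem : ∀ n, w / (u n).1 ∈ S := by
    intro n
    induction n with
    | zero => simp [u]
    | succ n ih =>
      have : w / (u (n + 1)).1 = w / (u n).1 * f (u n).1 (u n).2 := by
        show w / ((u n).1 / f (u n).1 (u n).2) = _
        rw [div_div_eq_mul_div, mul_div_right_comm]
      rw [this]
      exact S.mul_mem ih (hfS _ _)
  have hlim : Tendsto (fun n => ((u n).1 : E)) atTop (𝓝 1) := by
    rw [tendsto_iff_norm_sub_tendsto_zero]
    refine squeeze_zero (fun n => norm_nonneg _) (fun n => (norm_le_coordNorm b _).trans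
      (mul_le_mul_of_nonneg_left (hu n) (zero_le_one.trans (one_le_normConst b)))) ?_
    simpa using ((tendsto_pow_atTop_nhds_zero_of_lt_one hr₀ hr).mul_const ρ).const_mul (normConst b)
  have hw' : Tendsto (fun n => ((w / (u n).1 : Eˣ) : E)) atTop (𝓝 ((w : E) / 1)) := by
    simp only [Units.val_div_eq_div_val]
    exact tendsto_const_nhds.div hlim one_ne_zero
  rw [div_one] at hw'
  obtain ⟨s, hs, hse⟩ := hS.mem_of_tendsto hw' (.of_forall fun n => ⟨_, hmem n, rfl⟩)
  exact Units.ext hse ▸ hs

end FLTAgent.LocalDuality
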