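import Fermat.Agent.LocalDuality.NormIndex.Galois
import Mathlib.NumberTheory.Padics.ProperSpace
import Mathlib.NumberTheory.Padics.RingHoms

/-!
# The index of the `p`-th powers in the multiplicative group of a local field

`index_pow_range`, computed on a small ball around `1`.
-/

set_option autoImplicit false
set_option linter.unusedSectionVars false

noncomputable section

open Filter Topology

namespace FLTAgent.LocalDuality

variable {q : ℕ} [Fact q.Prime] {K : Type} [NormedField K] [NormedAlgebra ℚ_[q] K]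
  [IsUltrametricDist K] [FiniteDimensional ℚ_[q] K] (p : ℕ) [Fact p.Prime]

section Ball

variable {ι : Type*} [Fintype ι] {b : Module.Basis ι ℚ_[q] K} {ρ ρ' : ℝ}

theorem coordNorm_pow_sub_le {M : ℝ} (hCM : mulConst b * M ≤ 1) {x : K}
    (hx : coordNorm b x ≤ M) :
    coordNorm b ((1 + x) ^ p - 1 - (p : ℚ_[q]) • x) ≤ mulConst b * M * M := by
  simpa [Finset.prod_const, Finset.sum_const, nsmul_eq_mul, Algebra.smul_def] using
    coordNorm_prod_one_add_le b (Finset.range p) (fun _ => x)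
      ((coordNorm_nonneg b x).trans hx) hCM fun _ _ => hx

variable (h : IsSmall b ρ) (h' : IsSmall b ρ') (hρ' : ρ' = ρ * ‖(p : ℚ_[q])‖)
  (hC : mulConst b * ρ ≤ ‖(p : ℚ_[q])‖ / 2)

include hρ' hC

theorem ball_map_pow : (ball b h).map (powMonoidHom p) = ball b h' := by
  have hp0 : (p : ℚ_[q]) ≠ 0 := Nat.cast_ne_zero.mpr (Fact.out : p.Prime).ne_zero
  have hp1 : ‖(p : ℚ_[q])‖ ≤ 1 := by exact_mod_cast Padic.norm_int_le_one (p : ℤ)
  have hpp : 0 < ‖(p : ℚ_[q])‖ := norm_pos_iff.mpr hp0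
  have hle : ρ' ≤ ρ := by rw [hρ']; exact mul_le_of_le_one_right h.pos.le hp1
  have key : ∀ x : K, coordNorm b x ≤ ρ →
      coordNorm b ((1 + x) ^ p - 1 - (p : ℚ_[q]) • x)
        ≤ ‖(p : ℚ_[q])‖ * coordNorm b x * (1 / 2) := by
    intro x hx
    refine (coordNorm_pow_sub_le p
      ((mul_le_mul_of_nonneg_left hx (mulConst_pos b).le).trans h.mul_lt_one.le) le_rfl).trans ?_
    refine (mul_le_mul_of_nonneg_right
      ((mul_le_mul_of_nonneg_left hx (mulConst_pos b).le).trans hC) (coordNorm_nonneg b x)).trans_eq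
      ?_
    ring
  have hub : ∀ x : K, coordNorm b x ≤ ρ → coordNorm b ((1 + x) ^ p - 1) ≤ ρ' := by
    intro x hx
    have h3 := coordNorm_add_le b ((1 + x) ^ p - 1 - (p : ℚ_[q]) • x) ((p : ℚ_[q]) • x)
    rw [sub_add_cancel] at h3
    have hm : ‖(p : ℚ_[q])‖ * coordNorm b x ≤ ρ' := by
      rw [hρ', mul_comm ρ]; exact mul_le_mul_of_nonneg_left hx hpp.le
    refine h3.trans (max_le ((key x hx).trans (le_trans ?_ hm)) ?_)
    · exact mul_le_of_le_one_right (mul_nonneg hpp.le (coordNorm_nonneg b x)) (by norm_num)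
    · rw [coordNorm_smul]; exact hm
  refine le_antisymm ?_ ?_
  · rintro _ ⟨v, hv, rfl⟩
    have := hub ((v : K) - 1) (mem_ball.mp hv)
    rw [add_sub_cancel] at this
    exact mem_ball.mpr (by simpa using this)
  refine le_of_approx h' _ _ le_rfl ?_
    (isClosed_map_ball h (powMonoidHom p) (fun x => x ^ p) (continuous_pow p).continuousOn
      fun u => by simp)
    (r := 1 / 2) (by norm_num) (by norm_num) ?_
  · rintro _ ⟨v, hv, rfl⟩
    have := hub ((v : K) - 1) (mem_ball.mp hv)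
    rw [add_sub_cancel] at this
    exact mem_ball.mpr (by simpa using this)
  intro w hw
  set x := (p : ℚ_[q])⁻¹ • ((w : K) - 1) with hx
  have hxn : ‖(p : ℚ_[q])‖ * coordNorm b x = coordNorm b ((w : K) - 1) := by
    rw [hx, coordNorm_smul, norm_inv, ← mul_assoc, mul_inv_cancel₀ hpp.ne', one_mul]
  have hxρ : coordNorm b x ≤ ρ := by
    refine le_of_mul_le_mul_left ?_ hpp
    rw [hxn, mul_comm _ ρ, ← hρ']
    exact mem_ball.mp hw
  have h0 : (1 + x : K) ≠ 0 := by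
    intro h0
    have := h.norm_lt hxρ
    rw [eq_neg_of_add_eq_zero_right h0] at this
    simp at this
  set v : Kˣ := Units.mk0 (1 + x) h0
  have hv : v ∈ ball b h := mem_ball.mpr (by simpa [v] using hxρ)
  refine ⟨powMonoidHom p v, ⟨v, hv, rfl⟩, ?_⟩
  have hs : coordNorm b (((powMonoidHom p v : Kˣ) : K) - 1) ≤ ρ' := by simpa [v] using hub x hxρ
  rw [show ((w / powMonoidHom p v : Kˣ) : K) - 1
      = ((w : K) - (powMonoidHom p v : Kˣ)) * ↑(powMonoidHom p v)⁻¹ by
    rw [sub_mul, Units.mul_inv, div_eq_mul_inv, Units.val_mul]]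
  refine (h'.coordNorm_div_le hs _).trans ?_
  have hwx : (p : ℚ_[q]) • x = (w : K) - 1 := by rw [hx, smul_inv_smul₀ hp0]
  rw [← coordNorm_neg, neg_sub, show ((powMonoidHom p v : Kˣ) : K) - w
    = (1 + x) ^ p - 1 - (p : ℚ_[q]) • x by rw [hwx]; simp [v], ← hxn]
  exact (key x hxρ).trans_eq (by ring)

theorem ball_inf_ker_pow : ball b h ⊓ (powMonoidHom p).ker = ⊥ := by
  refine (Subgroup.eq_bot_iff_forall _).mpr fun w hw => ?_
  have hw' := Subgroup.mem_inf.mp hw
  have hxρ : coordNorm b ((w : K) - 1) ≤ ρ := mem_ball.mp hw'.1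
  have hpw : (w : K) ^ p = 1 := by
    simpa using congrArg (Units.val : Kˣ → K) (MonoidHom.mem_ker.mp hw'.2)
  have := coordNorm_pow_sub_le p
    ((mul_le_mul_of_nonneg_left hxρ (mulConst_pos b).le).trans h.mul_lt_one.le)
    (le_refl (coordNorm b ((w : K) - 1)))
  rw [add_sub_cancel, hpw, sub_self, zero_sub, coordNorm_neg, coordNorm_smul] at this
  have h1 : mulConst b * coordNorm b ((w : K) - 1) ≤ ‖(p : ℚ_[q])‖ / 2 :=
    (mul_le_mul_of_nonneg_left hxρ (mulConst_pos b).le).trans hC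
  have hpp : 0 < ‖(p : ℚ_[q])‖ :=
    norm_pos_iff.mpr (Nat.cast_ne_zero.mpr (Fact.out : p.Prime).ne_zero)
  have h0 : coordNorm b ((w : K) - 1) = 0 := by
    by_contra hne
    have hpos := lt_of_le_of_ne (coordNorm_nonneg b _) (Ne.symm hne)
    nlinarith [mul_le_mul_of_nonneg_right h1 hpos.le]
  exact Units.ext (sub_eq_zero.mp ((coordNorm_eq_zero b).mp h0))

end Ball

theorem exists_scalar_radius {ε : ℝ} (hε : 0 < ε) :
    ∃ c : ℚ_[q], c ≠ 0 ∧ ‖c‖ ≤ ε := by
  obtain ⟨x, hx0, hx⟩ := NormedField.exists_norm_lt ℚ_[q] hε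
  exact ⟨x, norm_pos_iff.mp hx0, hx.le⟩

section Residue

variable {ι : Type*} [Fintype ι] {b : Module.Basis ι ℚ_[q] K}

/-- Coordinates modulo `q` map `1 + c M` onto `(ℤ/q)^d`, with kernel `1 + q c M`. -/
theorem exists_ball_reduction {c : ℚ_[q]} (hc : c ≠ 0) (h : IsSmall b ‖c‖)
    {ρ' : ℝ} (h' : IsSmall b ρ') (hρ' : ρ' = ‖c‖ * ‖(q : ℚ_[q])‖)
    (hC : mulConst b * ‖c‖ ≤ ‖(q : ℚ_[q])‖) :
    ∃ (co : ball b h → ι → ℤ_[q]) (φ : ball b h →* Multiplicative (ι → ZMod q)),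
      (∀ v i, ((co v i : ℤ_[q]) : ℚ_[q]) = c⁻¹ * b.equivFun (((v : Kˣ) : K) - 1) i) ∧
      (∀ v i, (φ v).toAdd i = PadicInt.toZMod (co v i)) ∧ Function.Surjective φ ∧
      ∀ v, φ v = 1 ↔ coordNorm b (((v : Kˣ) : K) - 1) ≤ ρ' := by
  classical
  have hbound : ∀ v : ball b h, ∀ i, ‖c⁻¹ * b.equivFun (((v : Kˣ) : K) - 1) i‖ ≤ 1 := by
    intro v i
    rw [norm_mul, norm_inv, inv_mul_le_iff₀ (norm_pos_iff.mpr hc), mul_one]
    exact (norm_coord_le b _ i).trans (mem_ball.mp v.2)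
  obtain ⟨co, hco⟩ : ∃ co : ball b h → ι → ℤ_[q],
      ∀ v i, ((co v i : ℤ_[q]) : ℚ_[q]) = c⁻¹ * b.equivFun (((v : Kˣ) : K) - 1) i :=
    ⟨fun v i => ⟨_, hbound v i⟩, fun _ _ => rfl⟩
  have hmem : ∀ x : K, coordNorm b x ≤ ρ' ↔ ∀ i, ‖c⁻¹ * b.equivFun x i‖ ≤ ‖(q : ℚ_[q])‖ := by
    intro x
    rw [coordNorm, pi_norm_le_iff_of_nonneg h'.pos.le, hρ']
    refine forall_congr' fun i => ?_
    rw [norm_mul, norm_inv, inv_mul_le_iff₀ (norm_pos_iff.mpr hc)]
  have hker : ∀ y : ℤ_[q], PadicInt.toZMod y = 0 ↔ ‖(y : ℚ_[q])‖ ≤ ‖(q : ℚ_[q])‖ := by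
    intro y
    rw [← RingHom.mem_ker, PadicInt.ker_toZMod, IsLocalRing.mem_maximalIdeal, mem_nonunits_iff,
      PadicInt.not_isUnit_iff, ← PadicInt.norm_def, Padic.norm_p, ← zpow_neg_one,
      PadicInt.norm_le_pow_iff_norm_lt_pow_add_one, neg_add_cancel, zpow_zero]
  let φ : ball b h →* Multiplicative (ι → ZMod q) := MonoidHom.mk' (fun v =>
    Multiplicative.ofAdd fun i => PadicInt.toZMod (co v i)) fun v w => by
      rw [← ofAdd_add]
      refine congrArg Multiplicative.ofAdd (funext fun i => ?_)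
      rw [Pi.add_apply, ← map_add, ← sub_eq_zero, ← map_sub, hker]
      have e : ((co (v * w) i - (co v i + co w i) : ℤ_[q]) : ℚ_[q])
          = c⁻¹ * b.equivFun ((((v : Kˣ) : K) - 1) * (((w : Kˣ) : K) - 1)) i := by
        simp only [hco, PadicInt.coe_sub, PadicInt.coe_add, Subgroup.coe_mul, Units.val_mul]
        rw [← mul_add, ← mul_sub, ← Pi.add_apply, ← map_add, ← Pi.sub_apply, ← map_sub]
        rw [show (((v : Kˣ) : K) * ((w : Kˣ) : K) - 1 - (((v : Kˣ) : K) - 1 + (((w : Kˣ) : K) - 1)))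
          = (((v : Kˣ) : K) - 1) * (((w : Kˣ) : K) - 1) by ring]
      rw [e]
      refine (hmem _).mp ?_ i
      refine (coordNorm_mul_le b _ _).trans ?_
      rw [hρ', mul_comm ‖c‖]
      exact mul_le_mul ((mul_le_mul_of_nonneg_left (mem_ball.mp v.2) (mulConst_pos b).le).trans hC)
        (mem_ball.mp w.2) (coordNorm_nonneg _ _) (norm_nonneg _)
  have hsurj : Function.Surjective φ := by
    intro z
    choose a ha using fun i => ZMod.ringHom_surjective (PadicInt.toZMod (p := q)) (z.toAdd i)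
    set x : K := b.equivFun.symm fun i => c * (a i : ℚ_[q]) with hx
    have hxn : coordNorm b x ≤ ‖c‖ := by
      rw [coordNorm, hx, LinearEquiv.apply_symm_apply, pi_norm_le_iff_of_nonneg (norm_nonneg _)]
      intro i
      rw [norm_mul]
      exact mul_le_of_le_one_right (norm_nonneg _) (a i).2
    have h0 : (1 + x : K) ≠ 0 := by
      intro h0
      have := h.norm_lt hxn
      rw [eq_neg_of_add_eq_zero_right h0] at this
      simp at this
    refine ⟨⟨Units.mk0 (1 + x) h0, mem_ball.mpr (by simpa using hxn)⟩, ?_⟩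
    refine Multiplicative.toAdd.injective (funext fun i => ?_)
    refine Eq.trans ?_ (ha i)
    show PadicInt.toZMod _ = _
    congr 1
    apply Subtype.ext
    rw [hco]
    show c⁻¹ * b.equivFun (((Units.mk0 (1 + x) h0 : Kˣ) : K) - 1) i = _
    rw [Units.val_mk0, add_sub_cancel_left, hx, LinearEquiv.apply_symm_apply, ← mul_assoc,
      inv_mul_cancel₀ hc, one_mul]
  refine ⟨co, φ, hco, fun _ _ => rfl, hsurj, fun v => ?_⟩
  rw [hmem]
  constructor
  · intro hv i
    rw [← hco v i]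
    exact (hker (co v i)).mp (congrFun (Multiplicative.ofAdd.injective hv) i)
  · intro hv
    exact congrArg Multiplicative.ofAdd (funext fun i => (hker (co v i)).mpr
      (by rw [hco]; exact hv i))

/-- `[1 + c M : 1 + q c M] = q^d`. -/
theorem relIndex_ball_mul_q {c : ℚ_[q]} (hc : c ≠ 0) (h : IsSmall b ‖c‖)
    {ρ' : ℝ} (h' : IsSmall b ρ') (hρ' : ρ' = ‖c‖ * ‖(q : ℚ_[q])‖)
    (hC : mulConst b * ‖c‖ ≤ ‖(q : ℚ_[q])‖) :
    (ball b h').relIndex (ball b h) = q ^ Fintype.card ι := by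
  obtain ⟨-, φ, -, -, hsurj, hφ⟩ := exists_ball_reduction hc h h' hρ' hC
  have hkerφ : φ.ker = (ball b h').subgroupOf (ball b h) := by
    ext v
    rw [MonoidHom.mem_ker, Subgroup.mem_subgroupOf, mem_ball, hφ]
  rw [Subgroup.relIndex, ← hkerφ, Subgroup.index_ker, MonoidHom.range_eq_top.mpr hsurj,
    Subgroup.card_top, Nat.card_congr Multiplicative.toAdd, Nat.card_fun, Nat.card_zmod,
    Nat.card_eq_fintype_card]

end Residue

/-- **Index of `p`-th powers.** -/
theorem index_pow_range :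
    (powMonoidHom p : Kˣ →* Kˣ).range.index
      = Nat.card (powMonoidHom p : Kˣ →* Kˣ).ker * p
        * (if p = q then p ^ Module.finrank ℚ_[q] K else 1) := by
  classical
  have : ProperSpace K := FiniteDimensional.proper ℚ_[q] K
  set b := Module.finBasis ℚ_[q] K
  have hpp : 0 < ‖(p : ℚ_[q])‖ :=
    norm_pos_iff.mpr (Nat.cast_ne_zero.mpr (Fact.out : p.Prime).ne_zero)
  have hp1 : ‖(p : ℚ_[q])‖ ≤ 1 := by exact_mod_cast Padic.norm_int_le_one (p : ℤ)
  obtain ⟨ρ₀, hρ₀, hρ⟩ := exists_isSmall b (half_pos hpp)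
  obtain ⟨c, hc0, hcn⟩ := exists_scalar_radius (q := q) hρ₀
  obtain ⟨h, hC⟩ := hρ ‖c‖ (norm_pos_iff.mpr hc0) hcn
  obtain ⟨h', -⟩ := hρ (‖c‖ * ‖(p : ℚ_[q])‖) (by positivity)
    ((mul_le_of_le_one_right (norm_nonneg _) hp1).trans hcn)
  set V := ball b h
  have hVp : V.map (powMonoidHom p) = ball b h' := ball_map_pow p h h' rfl hC
  set π : Kˣ := Units.map (algebraMap ℚ_[q] K : ℚ_[q] →* K)
    (Units.mk0 (q : ℚ_[q]) (Nat.cast_ne_zero.mpr (Fact.out : q.Prime).ne_zero))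
  have hπ1 : ‖(π : K)‖ < 1 := by
    show ‖algebraMap ℚ_[q] K q‖ < 1
    rw [norm_algebraMap']
    exact Padic.norm_p_lt_one
  have hinj : ∀ k : ℤ, π ^ k ∈ V → k = 0 := by
    intro k hk
    have := norm_eq_one_of_mem_ball hk
    rw [Units.val_zpow_eq_zpow_val, norm_zpow] at this
    exact (zpow_eq_one_iff_right₀ (norm_nonneg _) hπ1.ne).mp this
  set B := Subgroup.zpowers π ⊔ V with hBdef
  have hB : B.index ≠ 0 := by
    obtain ⟨δ, hδ, hV⟩ := exists_nbhd_ball h
    exact index_zpowers_sup_ne_zero hπ1 hδ hV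
  have key := herbrand_invariance (powMonoidHom p : Kˣ →* Kˣ) 1 (fun a => by simp)
    (fun a => by simp) B (fun a ha => Subgroup.pow_mem _ ha p) (fun a _ => one_mem _) hB
  have hker : B ⊓ (powMonoidHom p : Kˣ →* Kˣ).ker = ⊥ := by
    refine (Subgroup.eq_bot_iff_forall _).mpr fun a ha => ?_
    obtain ⟨⟨_, ⟨k, rfl⟩, v, hv, rfl⟩, hak⟩ :=
      (Subgroup.mem_inf.mp ha).imp_left Subgroup.mem_sup.mp
    have hak' : (π ^ k) ^ p * v ^ p = 1 := by
      rw [← mul_pow]; exact MonoidHom.mem_ker.mp hak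
    have hk : π ^ (k * p) ∈ V := by
      rw [zpow_mul, zpow_natCast, eq_inv_of_mul_eq_one_left hak']
      exact V.inv_mem (Subgroup.pow_mem _ hv p)
    have hk0 : k = 0 :=
      (mul_eq_zero.mp (hinj _ hk)).resolve_right (by exact_mod_cast (Fact.out : p.Prime).ne_zero)
    subst hk0
    have hvk : v ∈ ball b h ⊓ (powMonoidHom p : Kˣ →* Kˣ).ker :=
      ⟨hv, by simpa using hak⟩
    rw [ball_inf_ker_pow p h rfl hC, Subgroup.mem_bot] at hvk
    simp [hvk]
  have hBp : B.map (powMonoidHom p) = Subgroup.zpowers (π ^ p) ⊔ ball b h' := by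
    rw [Subgroup.map_sup, MonoidHom.map_zpowers, hVp]
    rfl
  have hB1 : B.map (1 : Kˣ →* Kˣ) = ⊥ := (Subgroup.map_eq_bot_iff _).mpr (by simp)
  have hle : ball b h' ≤ V := fun v hv =>
    mem_ball.mpr ((mem_ball.mp hv).trans (mul_le_of_le_one_right (norm_nonneg _) hp1))
  rw [hBp, hB1, hker, MonoidHom.range_one, MonoidHom.ker_one, inf_top_eq,
    Subgroup.relIndex_self, mul_one, Subgroup.relIndex_bot_left, Subgroup.relIndex_top_right,
    hBdef, ← range_zpowersProd π V, relIndex_zpowersProd hinj p _ hle] at key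
  rw [← key, mul_assoc]
  congr 2
  split_ifs with hpq
  · subst hpq
    rw [relIndex_ball_mul_q hc0 h h' rfl (hC.trans (half_le_self hpp.le)), Fintype.card_fin]
  · have h1 : ‖(p : ℚ_[q])‖ = 1 := by
      rw [Padic.norm_natCast_eq_one_iff]
      exact (Nat.coprime_primes (Fact.out : q.Prime) (Fact.out : p.Prime)).mpr (Ne.symm hpq)
    rw [Subgroup.relIndex_eq_one]
    intro v hv
    exact mem_ball.mpr (by rw [h1, mul_one]; exact mem_ball.mp hv)

end FLTAgent.LocalDuality
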